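/-
GATE-E / RISK-4 PNEW-STAGE, leaf R4-G (g0-c) AT A BUNDLE (helper19): **`exists_eK` with every
binder discharged from `P : Pkg … (M * p) A`.**

`σ := I0 W p (M * p)` (the good symbols of the level `M p`), `𝔪 := ker (lam0 P)`,
`Z := Zof P = {l | l ∉ ↑P.S0}`, `lam : Nat.Primes → P.O` any system with
`lam ℓ ≡ a_ℓ(W)` off `S0` (e.g. `lam ℓ = χg (T_ℓ)` for a point `χg` lifting `θ̄`).

* `Zof`, `pr0_mem_Zof`, `exists_symbol_Zof` : the symbols of `P` are exactly the primes of `Z`;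
* `ker_lam0_eq_comap_mP` : `ker (lam0 P) = (mP P.O Z lam).comap symHom` (the binder `h𝔪`);
* `residue_lam_of_point` : the congruence hypothesis from a point `χ` of the Hecke algebra;
* **`exists_eK_pkg`** : `eK : ker (f₁.prod f₂) ≃ₗ[P.O] KLoc hpM (Zof P) lam` for ANY `f₁ f₂` between
  the `Hom`-model primary parts of the levels `M p`, `M` over `cores_p`, `coresD_p`
  (squarefree `M p`; the non-Eisenstein symbol is `P.exists_nonEis`).
-/
import Mathlib
import Fermat.Agent.GE8.P3B.GE8.RaiseP.BaseKer.EquivK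
import Fermat.Agent.GE8.P3B.GE6.Inst.BaseTPkg
import Fermat.Agent.GE8.P3B.StepGen
import Fermat.Agent.GE8.P3B.Ok3W

/- TWIN (helper6 B4 generator; conventions of helper24 / helper86) of `Fermat.Agent.GE8.RaiseP.BaseKer.EquivKPkg` with `p ≠ 3` relaxed to `Ok3A Sy 𝔪 p` / `Ok3W p W` (RISK-5 fix (B), step B4); everything below lives in the wrapper namespace `Fermat.Agent.GE8.P3B`. -/
set_option linter.dupNamespace false
open Fermat Fermat.Agent Fermat.Agent.GB Fermat.Agent.GB.B8 Fermat.Agent.GB.B8.LevelGen Fermat.Agent.GB.B8.LevelStage Fermat.Agent.GB.Setup Fermat.Agent.GB.Setup.SetupPkg Fermat.Agent.GE6 Fermat.Agent.GE6.Inst Fermat.Agent.GE8 Fermat.Agent.GE8.RaiseP Fermat.Agent.GE8.RaiseP.BaseKer Fermat.Agent.GE8.RaiseP.BaseKer.LocDict Fermat.Agent.GE8.RaiseP.DegCommGen Fermat.Agent.GE9 Fermat.Agent.GE9.Eta Fermat.Agent.GE9.Eta.Base Fermat.Agent.GE9.Eta.Base.LocBridge Fermat.Agent.GE9.PNew Fermat.Agent.GE9.PNew.Inst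 Fermat.Agent.GE9.PNew.Inst.BaseNewFields Fermat.Agent.GJ Fermat.Agent.GJ.J2 Fermat.Agent.GJ.J2.Lat

namespace Fermat.Agent.GE8.P3B

set_option autoImplicit false
set_option linter.unusedSectionVars false
set_option linter.unusedVariables false
set_option linter.style.haveILetI false

open scoped TensorProduct MatrixGroups
open CongruenceSubgroup ModularCurve.Period

noncomputable section

namespace GE8.RaiseP.BaseKer.EquivKPkg

open MvPolynomial IsLocalRing Function CuspForm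
open WeierstrassCurve WeierstrassCurve.Affine.Point
open GB.Setup.SetupPkg
open GB.B8.LevelStage GB.B8.LevelGen
open GJ.J2.Lat GE9.Eta.Base GE9.Eta.Base.LocBridge
open GE6.Inst.FreeLevelInst GE6.Inst.BaseTPkg
open GE8.RaiseP.DegCommGen
open GE9.PNew.Inst GE9.PNew.Inst.BaseNewFields
open GE8.RaiseP.BaseKer.LocDict GE8.RaiseP.BaseKer.EquivK

variable {p : ℕ} [hpF : Fact p.Prime] {W : WeierstrassCurve ℤ}
  {hcard₁ : Nat.card (Submodule.torsionBy ℤ
    ((W.map (Int.castRingHom ℚ)).toAffine.baseChange (AlgebraicClosure ℚ)).Point p) = p ^ 2}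
  {hker : GaloisFactorsThroughFiniteLevel
    (WeierstrassCurve.Affine.Point.galoisRepModuleEnd (K := AlgebraicClosure ℚ) ℚ
      (W.map (Int.castRingHom ℚ)) p)}
  {N A : ℕ} (P : Pkg p W hcard₁ hker N A)

/-- the primes in the algebra at the base: the primes outside `S0`. -/
def Zof : Set ℕ := {l | l ∉ (↑P.S0 : Set ℕ)}

theorem mem_Zof {l : ℕ} : l ∈ Zof P ↔ l ∉ (↑P.S0 : Set ℕ) := Iff.rfl

theorem pr0_mem_Zof (s : I0 W p N) : pr0 W p N s ∈ Zof P := pr0_notMem_S0 P s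

theorem exists_symbol_Zof (l : Nat.Primes) (hl : (l : ℕ) ∈ Zof P) :
    ∃ s : I0 W p N, pr0 W p N s = (l : ℕ) := exists_symbol P l l.2 hl

variable [NeZero N]

/-- **the binder `h𝔪` at a bundle**: `ker (lam0 P)` is the pull-back of `mP P.O Z lam` as soon as
`lam ℓ ≡ a_ℓ(W)` at every good symbol. -/
theorem ker_lam0_eq_comap_mP (lam : Nat.Primes → P.O)
    (hlam : ∀ s : I0 W p N,
      residue P.O (lam ⟨pr0 W p N s, pr0_prime W p N s⟩) = ((W.apOfModel s.1 : ℤ) : P.k)) :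
    RingHom.ker (lam0 P : MvPolynomial (I0 W p N) P.O →+* P.k)
      = (mP P.O (Zof P) lam).comap
          (symHom P.O (pr0 W p N) (pr0_prime W p N) (pr0_mem_Zof P) :
            MvPolynomial (I0 W p N) P.O →+* PAlg P.O (Zof P)) :=
  ker_eq_comap_mP (pr0 W p N) (pr0_prime W p N) (pr0_mem_Zof P) lam (lam0 P)
    (fun s => by rw [lam0_X, hlam s])

/-- the congruence hypothesis from a point `χ` lifting `θ̄` whose values at the good `T_ℓ` are
`lam ℓ`. -/
theorem residue_lam_of_point (χ : heckeAlgebra N 2 (↑P.S0 : Set ℕ) →+* P.O)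
    (hχ : ∀ t : heckeAlgebra N 2 (↑P.S0 : Set ℕ), residue P.O (χ t) = P.theta t)
    (lam : Nat.Primes → P.O)
    (hlamχ : ∀ (ℓ : ℕ) (hℓ : ℓ.Prime) (hℓN : ¬ ℓ ∣ N) (hℓS : ℓ ∉ (↑P.S0 : Set ℕ)),
      χ (heckeAlgebra.T hℓ hℓN hℓS) = lam (⟨ℓ, hℓ⟩ : Nat.Primes))
    (s : I0 W p N) :
    residue P.O (lam ⟨pr0 W p N s, pr0_prime W p N s⟩) = ((W.apOfModel s.1 : ℤ) : P.k) := by
  have h := hlamχ s.1 s.2.1 s.2.2.2.1 (pr0_notMem_S0 P s)
  have h2 : lam ⟨pr0 W p N s, pr0_prime W p N s⟩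
      = χ (heckeAlgebra.T s.2.1 s.2.2.2.1 (pr0_notMem_S0 P s)) := h.symm
  rw [h2, hχ, P.theta_T s.2.1 s.2.2.2.1 (pr0_notMem_S0 P s)]

end GE8.RaiseP.BaseKer.EquivKPkg

namespace GE8.RaiseP.BaseKer.EquivKPkg

open MvPolynomial IsLocalRing Function CuspForm
open WeierstrassCurve WeierstrassCurve.Affine.Point
open GB.Setup.SetupPkg
open GB.B8.LevelStage GB.B8.LevelGen
open GJ.J2.Lat GE9.Eta.Base GE9.Eta.Base.LocBridge
open GE6.Inst.FreeLevelInst GE6.Inst.BaseTPkg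
open GE8.RaiseP.DegCommGen
open GE9.PNew.Inst GE9.PNew.Inst.BaseNewFields
open GE8.RaiseP.BaseKer.LocDict GE8.RaiseP.BaseKer.EquivK

variable {p : ℕ} [hpF : Fact p.Prime] {W : WeierstrassCurve ℤ}
  {hcard₁ : Nat.card (Submodule.torsionBy ℤ
    ((W.map (Int.castRingHom ℚ)).toAffine.baseChange (AlgebraicClosure ℚ)).Point p) = p ^ 2}
  {hker : GaloisFactorsThroughFiniteLevel
    (WeierstrassCurve.Affine.Point.galoisRepModuleEnd (K := AlgebraicClosure ℚ) ℚ
      (W.map (Int.castRingHom ℚ)) p)}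
  {M A : ℕ} (P : Pkg p W hcard₁ hker (M * p) A) [NeZero M] [NeZero (M * p)]

/-- **(g0-c) at a bundle of level `M p`**: the `Hom`-model of the `p`-new base module is
`KLoc hpM (Zof P) lam`, through the inverse of `tensHom`, equivariantly for every good Hecke
symbol. -/
theorem exists_eK_pkg (hpM : ¬ p ∣ M) (hsq : Squarefree (M * p)) (lam : Nat.Primes → P.O)
    (hlam : ∀ s : I0 W p (M * p),
      residue P.O (lam ⟨pr0 W p (M * p) s, pr0_prime W p (M * p) s⟩)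
        = ((W.apOfModel s.1 : ℤ) : P.k))
    (f₁ f₂ : ↥(locSub (actN P.O (pr0 W p (M * p)) (pr0_prime W p (M * p)) (M * p))
        (RingHom.ker (lam0 P : MvPolynomial (I0 W p (M * p)) P.O →+* P.k))) →ₗ[P.O]
      ↥(locSub (actN P.O (pr0 W p (M * p)) (pr0_prime W p (M * p)) M)
        (RingHom.ker (lam0 P : MvPolynomial (I0 W p (M * p)) P.O →+* P.k))))
    (hf₁ : ∀ y, ((f₁ y : ↥(locSub (actN P.O (pr0 W p (M * p)) (pr0_prime W p (M * p)) M)
        (RingHom.ker (lam0 P : MvPolynomial (I0 W p (M * p)) P.O →+* P.k)))) :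
          Additive (Gamma0 M) →+ P.O)
      = coresAtLin P.O (rfl : M * p = M * p) hpM (y : Additive (Gamma0 (M * p)) →+ P.O))
    (hf₂ : ∀ y, ((f₂ y : ↥(locSub (actN P.O (pr0 W p (M * p)) (pr0_prime W p (M * p)) M)
        (RingHom.ker (lam0 P : MvPolynomial (I0 W p (M * p)) P.O →+* P.k)))) :
          Additive (Gamma0 M) →+ P.O)
      = coresDAtLin P.O (rfl : M * p = M * p) hpM (y : Additive (Gamma0 (M * p)) →+ P.O)) :
    ∃ eK : ↥(LinearMap.ker (f₁.prod f₂)) ≃ₗ[P.O] ↥(KLoc hpM (Zof P) lam),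
      (∀ y : ↥(LinearMap.ker (f₁.prod f₂)),
        tensHom (M * p) P.O ((eK y : ↥(KLoc hpM (Zof P) lam)) : P.O ⊗[ℤ] Lam (M * p))
          = ((y : Mbase P) : Additive (Gamma0 (M * p)) →+ P.O)) ∧
      (∀ (s : I0 W p (M * p)) (y z : ↥(LinearMap.ker (f₁.prod f₂))),
        (z : Mbase P) = actBase P (X s) (y : Mbase P) →
          ((eK z : ↥(KLoc hpM (Zof P) lam)) : P.O ⊗[ℤ] Lam (M * p))
            = (latT (M * p) ⟨s.1, s.2.1⟩).baseChange P.O
                ((eK y : ↥(KLoc hpM (Zof P) lam)) : P.O ⊗[ℤ] Lam (M * p))) := by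
  -- a non-Eisenstein symbol
  obtain ⟨ℓ, hℓ, -, hgood, hℓM, hℓp, hne⟩ := P.exists_nonEis ∅
  let s₀ : I0 W p (M * p) := ⟨ℓ, hℓ, hgood, hℓM, hℓp⟩
  have hτ : (X s₀ - C (((pr0 W p (M * p) s₀ + 1 : ℕ) : P.O)) : MvPolynomial (I0 W p (M * p)) P.O)
      ∉ RingHom.ker (lam0 P : MvPolynomial (I0 W p (M * p)) P.O →+* P.k) := by
    intro hmem
    rw [RingHom.mem_ker] at hmem
    have h1 : lam0 P (X s₀ - C (((pr0 W p (M * p) s₀ + 1 : ℕ) : P.O))) = 0 := hmem
    rw [map_sub, lam0_X, ← MvPolynomial.algebraMap_eq, AlgHom.commutes, map_natCast,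
      sub_eq_zero] at h1
    apply hne
    rw [h1]
    show ((ℓ + 1 : ℕ) : P.k) = _
    push_cast
    rfl
  obtain ⟨eK, h1, -, h3⟩ := exists_eK (O := P.O) (pr0 W p (M * p)) (pr0_prime W p (M * p)) hpM hsq
    (RingHom.ker (lam0 P : MvPolynomial (I0 W p (M * p)) P.O →+* P.k)) s₀ hℓM hτ f₁ f₂ hf₁ hf₂
    (pr0_mem_Zof P) (exists_symbol_Zof P) lam (ker_lam0_eq_comap_mP P lam hlam)
  exact ⟨eK, h1, fun s y z hz => h3 s y z hz⟩

end GE8.RaiseP.BaseKer.EquivKPkg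

end

end Fermat.Agent.GE8.P3B
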