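/-
GATE-E / RISK-4 PNEW-STAGE, leaf R4-G (g0-c) (helper19): **`eK` — the `Hom`-model and the
`Lam`-model of the `p`-new base module are the same.**

`Hom`-model (GATE-B / `BaseB` / `WireNew`, helper55, helper4, helper15): `ker (f₁.prod f₂)` for
`f₁ f₂ : locSub (actN O pr hpr (M p)) 𝔪 → locSub (actN O pr hpr M) 𝔪` with underlying maps
`cores_p`, `coresD_p` (helper4's adapter form; e.g. the canonical pair `Hf0Hom.coresLoc`,
`coresDLoc`).  `Lam`-model (R4-I, helper37 / helper2): `KLoc hpM Z lam = KNew ⊓ locPart (mP O Z lam)`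
inside `O ⊗ Lam (M p)`.

* `bp1O_eq_coresPO`, `bp2O_eq_coresDPO` : helper37's and helper4's spellings of `cores_p ⊗ O`;
* `tensHom_bp1O`, `tensHom_bp2O` : `tensHom ∘ (cores_p ⊗ O) = cores_p ∘ tensHom` (`coresAtLin` form);
* **`exists_eK`** : at a squarefree level `M p` with one non-Eisenstein symbol prime to `M p`:
  `eK : ker (f₁.prod f₂) ≃ₗ[O] KLoc hpM Z lam` with `tensHom (eK y) = y`, equivariant for the whole
  symbol algebra and for every Hecke symbol (`T_ℓ`, `ℓ = pr s`);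
* `exists_eK_canon` : the same for the canonical pair `(coresLoc, coresDLoc)`.

With `TransportMod` (helper57) / `BaseKer.Abs.transportModule` this gives the `T₀`-structure on
`ker (f₁.prod f₂)` for `T₀ := ImageRing.TQ O θ tw_L`, `L := KLoc`, `hfaith`, `htQ`/`hgen`, and the
`e` of `WireNew.twLevelsStmt_newBase_pkg_congr`.
-/
import Mathlib
import Fermat.Agent.GE8.P3B.GE8.RaiseP.Hf0Hom
import Fermat.Agent.GE9.PNew.Inst.BaseNewFields
import Fermat.Agent.GE8.RaiseP.BaseKer.Abs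
import Fermat.Agent.GE8.RaiseP.BaseKer.LocDict
import Fermat.Agent.GE8.P3B.StepGen
import Fermat.Agent.GE8.P3B.Ok3W

/- TWIN (helper6 B4 generator; conventions of helper24 / helper86) of `Fermat.Agent.GE8.RaiseP.BaseKer.EquivK` with `p ≠ 3` relaxed to `Ok3A Sy 𝔪 p` / `Ok3W p W` (RISK-5 fix (B), step B4); everything below lives in the wrapper namespace `Fermat.Agent.GE8.P3B`. -/
set_option linter.dupNamespace false
open Fermat Fermat.Agent Fermat.Agent.GB Fermat.Agent.GB.B3 Fermat.Agent.GB.B3.Loc Fermat.Agent.GB.B3.RealLevel Fermat.Agent.GB.B8 Fermat.Agent.GB.B8.LevelGamma0 Fermat.Agent.GB.B8.LevelGen Fermat.Agent.GB.B8.LevelStage Fermat.Agent.GE8 Fermat.Agent.GE8.RaiseP Fermat.Agent.GE8.RaiseP.BaseKer Fermat.Agent.GE8.RaiseP.BaseKer.Abs Fermat.Agent.GE8.RaiseP.BaseKer.LocDict Fermat.Agent.GE8.RaiseP.DegCommGen Fermat.Agent.GE9 Fermat.Agent.GE9.Eta Fermat.Agent.GE9.Eta.Base Fermat.Agent.GE9.Eta.Base.LocBridge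 Fermat.Agent.GE9.PNew Fermat.Agent.GE9.PNew.Inst Fermat.Agent.GE9.PNew.Inst.BaseNewFields Fermat.Agent.GE9.PNew.Inst.PolyLin Fermat.Agent.GJ Fermat.Agent.GJ.J2 Fermat.Agent.GJ.J2.Lat Fermat.Agent.GM Fermat.Agent.GM.B Fermat.Agent.S16_helper49

namespace Fermat.Agent.GE8.P3B

set_option autoImplicit false
set_option linter.unusedSectionVars false
set_option linter.unusedVariables false
set_option linter.style.haveILetI false

open scoped TensorProduct MatrixGroups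
open CongruenceSubgroup ModularCurve.Period

noncomputable section

namespace GE8.RaiseP.BaseKer.EquivK

open MvPolynomial IsLocalRing Function
open S16_helper49 GM.B
open GB.B3.RealLevel GB.B3.Loc
open GB.B8.LevelStage GB.B8.LevelGen GB.B8.LevelGamma0
open GJ.J2.Lat GE9.Eta.Base GE9.Eta.Base.LocBridge
open GE8.RaiseP.DegCommGen GE8.RaiseP.Hf0Hom
open GE9.PNew.Inst GE9.PNew.Inst.PolyLin
open GE9.PNew.Inst.BaseNewFields
open GE8.RaiseP.BaseKer.Abs GE8.RaiseP.BaseKer.LocDict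

/-! ### the two spellings of `cores_p ⊗ O` -/

section Spell

variable {p : ℕ} [Fact p.Prime] {M : ℕ} [NeZero M] [NeZero (M * p)] (hpM : ¬ p ∣ M)
  (O : Type) [CommRing O]

theorem bp1O_eq_coresPO : bp1O hpM O = coresPO hpM O := by
  have h : bP1 hpM = (coresP ℤ hpM).toIntLinearMap := LinearMap.ext fun z => rfl
  unfold bp1O coresPO
  rw [h]

theorem bp2O_eq_coresDPO : bp2O hpM O = coresDPO hpM O := by
  have h : bP2 hpM = (coresDP ℤ hpM).toIntLinearMap := LinearMap.ext fun z => rfl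
  unfold bp2O coresDPO
  rw [h]

/-- `tensHom ∘ (cores_p ⊗ O) = cores_p ∘ tensHom`, in helper41's `coresAtLin` spelling. -/
theorem tensHom_bp1O (w : O ⊗[ℤ] Lam (M * p)) :
    tensHom M O (bp1O hpM O w) = coresAtLin O (rfl : M * p = M * p) hpM (tensHom (M * p) O w) := by
  rw [bp1O_eq_coresPO, tensHom_coresPO, coresAtLin_apply, coresAt_rfl]

theorem tensHom_bp2O (w : O ⊗[ℤ] Lam (M * p)) :
    tensHom M O (bp2O hpM O w) = coresDAtLin O (rfl : M * p = M * p) hpM (tensHom (M * p) O w) := by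
  rw [bp2O_eq_coresDPO, tensHom_coresDPO, coresDAtLin_apply, coresDAt_rfl]

end Spell

/-! ### `eK` -/

section Main

variable {O : Type} [CommRing O] [IsDomain O] [CharZero O] [IsDiscreteValuationRing O]
  [IsAdicComplete (maximalIdeal O) O]
  {p : ℕ} [Fact p.Prime] {σ : Type} (pr : σ → ℕ) (hpr : ∀ s, (pr s).Prime)
  {M : ℕ} [NeZero M] [NeZero (M * p)] (hpM : ¬ p ∣ M)

/-- **(g0-c)**: the `p`-new base module in the `Hom`-model is the `p`-new base module `KLoc` in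
the `Lam`-model, through the inverse of `tensHom`, Hecke-equivariantly.  `f₁ f₂` are ANY linear maps
between the `𝔪`-primary parts with underlying maps `cores_p`, `coresD_p`. -/
theorem exists_eK (hsq : Squarefree (M * p))
    (𝔪 : Ideal (MvPolynomial σ O)) [𝔪.IsMaximal] (s₀ : σ) (hs₀ : ¬ pr s₀ ∣ M * p)
    (hτ : (X s₀ - C (((pr s₀ + 1 : ℕ) : O)) : MvPolynomial σ O) ∉ 𝔪)
    (f₁ f₂ : ↥(locSub (actN O pr hpr (M * p)) 𝔪) →ₗ[O] ↥(locSub (actN O pr hpr M) 𝔪))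
    (hf₁ : ∀ y, ((f₁ y : ↥(locSub (actN O pr hpr M) 𝔪)) : Additive (Gamma0 M) →+ O)
      = coresAtLin O (rfl : M * p = M * p) hpM (y : Additive (Gamma0 (M * p)) →+ O))
    (hf₂ : ∀ y, ((f₂ y : ↥(locSub (actN O pr hpr M) 𝔪)) : Additive (Gamma0 M) →+ O)
      = coresDAtLin O (rfl : M * p = M * p) hpM (y : Additive (Gamma0 (M * p)) →+ O))
    {Z : Set ℕ} (hZ : ∀ s, pr s ∈ Z) (hall : ∀ l : Nat.Primes, (l : ℕ) ∈ Z → ∃ s, pr s = (l : ℕ))
    (lam : Nat.Primes → O)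
    (h𝔪 : 𝔪 = (mP O Z lam).comap (symHom O pr hpr hZ : MvPolynomial σ O →+* PAlg O Z)) :
    ∃ eK : ↥(LinearMap.ker (f₁.prod f₂)) ≃ₗ[O] ↥(KLoc hpM Z lam),
      (∀ y : ↥(LinearMap.ker (f₁.prod f₂)),
        tensHom (M * p) O ((eK y : ↥(KLoc hpM Z lam)) : O ⊗[ℤ] Lam (M * p))
          = ((y : ↥(locSub (actN O pr hpr (M * p)) 𝔪)) : Additive (Gamma0 (M * p)) →+ O)) ∧
      (∀ (t : MvPolynomial σ O) (y z : ↥(LinearMap.ker (f₁.prod f₂))),
        (z : ↥(locSub (actN O pr hpr (M * p)) 𝔪))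
            = locAct (actN O pr hpr (M * p)) 𝔪 t (y : ↥(locSub (actN O pr hpr (M * p)) 𝔪)) →
          ((eK z : ↥(KLoc hpM Z lam)) : O ⊗[ℤ] Lam (M * p))
            = actLam O (M * p) pr hpr t ((eK y : ↥(KLoc hpM Z lam)) : O ⊗[ℤ] Lam (M * p))) ∧
      (∀ (s : σ) (y z : ↥(LinearMap.ker (f₁.prod f₂))),
        (z : ↥(locSub (actN O pr hpr (M * p)) 𝔪))
            = locAct (actN O pr hpr (M * p)) 𝔪 (X s)
                (y : ↥(locSub (actN O pr hpr (M * p)) 𝔪)) →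
          ((eK z : ↥(KLoc hpM Z lam)) : O ⊗[ℤ] Lam (M * p))
            = (latT (M * p) ⟨pr s, hpr s⟩).baseChange O
                ((eK y : ↥(KLoc hpM Z lam)) : O ⊗[ℤ] Lam (M * p))) := by
  haveI : Module.Finite O (Additive (Gamma0 (M * p)) →+ O) := finite_hom O (M * p)
  -- EB2 at the level `M p`
  obtain ⟨e, he1, he2, -⟩ :=
    GE9.Eta.Base.LocBridgeBnd.exists_locEquiv_of_squarefree (O := O) pr hpr (M * p)
      hsq 𝔪 s₀ hs₀ hτ
  -- the kernel criteria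
  have h₁ : ∀ y : ↥(locSub (actN O pr hpr (M * p)) 𝔪),
      f₁ y = 0 ↔ bp1O hpM O ((e y : ↥(locSub (actLam O (M * p) pr hpr) 𝔪)) : O ⊗[ℤ] Lam (M * p))
        = 0 := fun y =>
    eq_zero_iff_of_square
      (fun y : ↥(locSub (actN O pr hpr (M * p)) 𝔪) => (y : Additive (Gamma0 (M * p)) →+ O))
      (locSub (actN O pr hpr M) 𝔪).subtype.toAddMonoidHom Subtype.val_injective
      (tensHom (M * p) O) (tensHom M O).toAddMonoidHom (tensHom_injective M O)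
      (coresAtLin O (rfl : M * p = M * p) hpM) f₁ hf₁ (bp1O hpM O)
      (fun x => tensHom_bp1O hpM O x) y _ (he1 y)
  have h₂ : ∀ y : ↥(locSub (actN O pr hpr (M * p)) 𝔪),
      f₂ y = 0 ↔ bp2O hpM O ((e y : ↥(locSub (actLam O (M * p) pr hpr) 𝔪)) : O ⊗[ℤ] Lam (M * p))
        = 0 := fun y =>
    eq_zero_iff_of_square
      (fun y : ↥(locSub (actN O pr hpr (M * p)) 𝔪) => (y : Additive (Gamma0 (M * p)) →+ O))
      (locSub (actN O pr hpr M) 𝔪).subtype.toAddMonoidHom Subtype.val_injective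
      (tensHom (M * p) O) (tensHom M O).toAddMonoidHom (tensHom_injective M O)
      (coresDAtLin O (rfl : M * p = M * p) hpM) f₂ hf₂ (bp2O hpM O)
      (fun x => tensHom_bp2O hpM O x) y _ (he1 y)
  -- the equivalence onto `locSub (actLam) ⊓ (ker ⊓ ker)`
  let e₀ : ↥(LinearMap.ker (f₁.prod f₂)) ≃ₗ[O] ↥(locSub (actLam O (M * p) pr hpr) 𝔪 ⊓
      (LinearMap.ker (bp1O hpM O) ⊓ LinearMap.ker (bp2O hpM O))) :=
    kerEquiv (𝒪 := O) (MF := ↥(locSub (actN O pr hpr (M * p)) 𝔪)) (X := O ⊗[ℤ] Lam (M * p))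
      (P := ↥(locSub (actN O pr hpr M) 𝔪)) (Y := O ⊗[ℤ] Lam M)
      (locSub (actLam O (M * p) pr hpr) 𝔪) e f₁ f₂ (bp1O hpM O) (bp2O hpM O) h₁ h₂
  -- the target is `KLoc`
  have htgt : locSub (actLam O (M * p) pr hpr) 𝔪 ⊓
      (LinearMap.ker (bp1O hpM O) ⊓ LinearMap.ker (bp2O hpM O)) = KLoc hpM Z lam := by
    ext x
    rw [mem_locSub_inf_KNew_iff pr hpr hZ lam hpM hall 𝔪 h𝔪 x]
    exact Iff.rfl
  let e₁ : ↥(locSub (actLam O (M * p) pr hpr) 𝔪 ⊓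
      (LinearMap.ker (bp1O hpM O) ⊓ LinearMap.ker (bp2O hpM O))) ≃ₗ[O] ↥(KLoc hpM Z lam) :=
    LinearEquiv.ofEq _ _ htgt
  have hcoe : ∀ y : ↥(LinearMap.ker (f₁.prod f₂)),
      (((e₀.trans e₁) y : ↥(KLoc hpM Z lam)) : O ⊗[ℤ] Lam (M * p))
        = ((e (y : ↥(locSub (actN O pr hpr (M * p)) 𝔪)) :
            ↥(locSub (actLam O (M * p) pr hpr) 𝔪)) : O ⊗[ℤ] Lam (M * p)) := fun y => rfl
  have hact : ∀ (t : MvPolynomial σ O) (y z : ↥(LinearMap.ker (f₁.prod f₂))),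
      (z : ↥(locSub (actN O pr hpr (M * p)) 𝔪))
          = locAct (actN O pr hpr (M * p)) 𝔪 t (y : ↥(locSub (actN O pr hpr (M * p)) 𝔪)) →
        (((e₀.trans e₁) z : ↥(KLoc hpM Z lam)) : O ⊗[ℤ] Lam (M * p))
          = actLam O (M * p) pr hpr t
              (((e₀.trans e₁) y : ↥(KLoc hpM Z lam)) : O ⊗[ℤ] Lam (M * p)) := by
    intro t y z hz
    rw [hcoe, hcoe, hz, he2]
  refine ⟨e₀.trans e₁, fun y => ?_, hact, fun s y z hz => ?_⟩
  · rw [hcoe, he1]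
  · rw [hact (X s) y z hz, actLam_X]

/-- **(g0-c) for the canonical pair** `(coresLoc, coresDLoc)` of `Hf0Hom`. -/
theorem exists_eK_canon (hsq : Squarefree (M * p)) (hne : ∀ s, pr s ≠ p)
    (𝔪 : Ideal (MvPolynomial σ O)) [𝔪.IsMaximal] (s₀ : σ) (hs₀ : ¬ pr s₀ ∣ M * p)
    (hτ : (X s₀ - C (((pr s₀ + 1 : ℕ) : O)) : MvPolynomial σ O) ∉ 𝔪)
    {Z : Set ℕ} (hZ : ∀ s, pr s ∈ Z) (hall : ∀ l : Nat.Primes, (l : ℕ) ∈ Z → ∃ s, pr s = (l : ℕ))
    (lam : Nat.Primes → O)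
    (h𝔪 : 𝔪 = (mP O Z lam).comap (symHom O pr hpr hZ : MvPolynomial σ O →+* PAlg O Z)) :
    ∃ eK : ↥(LinearMap.ker ((coresLoc pr hpr (rfl : M * p = M * p) hpM hne 𝔪).prod
        (coresDLoc pr hpr (rfl : M * p = M * p) hpM hne 𝔪))) ≃ₗ[O] ↥(KLoc hpM Z lam),
      (∀ y, tensHom (M * p) O ((eK y : ↥(KLoc hpM Z lam)) : O ⊗[ℤ] Lam (M * p))
          = ((y : ↥(locSub (actN O pr hpr (M * p)) 𝔪)) : Additive (Gamma0 (M * p)) →+ O)) ∧
      (∀ (t : MvPolynomial σ O) (y z : ↥(LinearMap.ker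
          ((coresLoc pr hpr (rfl : M * p = M * p) hpM hne 𝔪).prod
            (coresDLoc pr hpr (rfl : M * p = M * p) hpM hne 𝔪)))),
        (z : ↥(locSub (actN O pr hpr (M * p)) 𝔪))
            = locAct (actN O pr hpr (M * p)) 𝔪 t (y : ↥(locSub (actN O pr hpr (M * p)) 𝔪)) →
          ((eK z : ↥(KLoc hpM Z lam)) : O ⊗[ℤ] Lam (M * p))
            = actLam O (M * p) pr hpr t ((eK y : ↥(KLoc hpM Z lam)) : O ⊗[ℤ] Lam (M * p))) ∧
      (∀ (s : σ) (y z : ↥(LinearMap.ker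
          ((coresLoc pr hpr (rfl : M * p = M * p) hpM hne 𝔪).prod
            (coresDLoc pr hpr (rfl : M * p = M * p) hpM hne 𝔪)))),
        (z : ↥(locSub (actN O pr hpr (M * p)) 𝔪))
            = locAct (actN O pr hpr (M * p)) 𝔪 (X s)
                (y : ↥(locSub (actN O pr hpr (M * p)) 𝔪)) →
          ((eK z : ↥(KLoc hpM Z lam)) : O ⊗[ℤ] Lam (M * p))
            = (latT (M * p) ⟨pr s, hpr s⟩).baseChange O
                ((eK y : ↥(KLoc hpM Z lam)) : O ⊗[ℤ] Lam (M * p))) :=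
  exists_eK pr hpr hpM hsq 𝔪 s₀ hs₀ hτ _ _ (fun _ => rfl) (fun _ => rfl) hZ hall lam h𝔪

end Main

end GE8.RaiseP.BaseKer.EquivK

end

end Fermat.Agent.GE8.P3B
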